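import Mathlib
import Fermat.Prelude.Def_CuspForm_IntegralStructure
import Fermat.Prelude.Thm_ModularForm_sturm_bound_Gamma0
import Fermat.Prelude.Thm_CongruenceSubgroup_one_mem_strictPeriods_Gamma0

set_option autoImplicit false

/-!
# S23 (general weight): the trivial weights

For `k ≤ 0` and for odd `k` the space `S_k(Γ₀(N))` is zero, so
`CuspForm.HasIntegralStructure N k` holds trivially.  Together with the main route for even
`k ≥ 2` this gives `HasIntegralStructure N k` for every `k : ℤ`.
-/

namespace Fermat.Agent.S23.H576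

open CuspForm UpperHalfPlane
open scoped MatrixGroups

/-- Cusp forms of non-positive weight on `Γ₀(N)` vanish (Sturm bound from the prelude). -/
theorem cuspForm_eq_zero_of_nonpos {N : ℕ} [NeZero N] {k : ℤ} (hk : k ≤ 0)
    (f : CuspForm (CongruenceSubgroup.Gamma0 N) k) : f = 0 := by
  have h0 : (CuspForm.toModularFormₗ f) = 0 := by
    apply ModularForm.sturm_bound_Gamma0 N
    intro n hn
    have hz : (k * ((CongruenceSubgroup.Gamma0 N).index : ℤ)).toNat = 0 := by
      rw [Int.toNat_eq_zero]
      exact mul_nonpos_of_nonpos_of_nonneg hk (by positivity)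
    rw [hz, Nat.zero_div, Nat.le_zero] at hn
    subst hn
    exact CuspFormClass.qExpansion_coeff_zero (f := f) one_pos
      (CongruenceSubgroup.one_mem_strictPeriods_Gamma0 N)
  exact CuspForm.toModularFormₗ_injective (by rw [h0, map_zero])

/-- Cusp forms of odd weight on `Γ₀(N)` vanish, since `-1 ∈ Γ₀(N)`. -/
theorem cuspForm_eq_zero_of_odd {N : ℕ} {k : ℤ} (hk : Odd k)
    (f : CuspForm (CongruenceSubgroup.Gamma0 N) k) : f = 0 := by
  have hmem : (-1 : GL (Fin 2) ℝ) ∈
      (Subgroup.map (Matrix.SpecialLinearGroup.mapGL ℝ) (CongruenceSubgroup.Gamma0 N)) := by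
    refine ⟨-1, ?_, ?_⟩
    · simp [CongruenceSubgroup.Gamma0_mem]
    · ext i j
      simp
  have h0 : (CuspForm.toModularFormₗ f) = 0 :=
    ModularForm.eq_zero_of_neg_one_mem hmem hk _
  exact CuspForm.toModularFormₗ_injective (by rw [h0, map_zero])

/-- If every cusp form of weight `k` on `Γ₀(N)` vanishes, the integral structure is trivial. -/
theorem hasIntegralStructure_of_forall_eq_zero {N : ℕ} {k : ℤ}
    (h : ∀ f : CuspForm (CongruenceSubgroup.Gamma0 N) k, f = 0) :
    CuspForm.HasIntegralStructure N k := by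
  unfold CuspForm.HasIntegralStructure
  rw [eq_top_iff]
  intro f _
  rw [h f]
  exact Submodule.zero_mem _

/-- `HasIntegralStructure N k` for `k ≤ 0`. -/
theorem hasIntegralStructure_of_nonpos (N : ℕ) [NeZero N] {k : ℤ} (hk : k ≤ 0) :
    CuspForm.HasIntegralStructure N k :=
  hasIntegralStructure_of_forall_eq_zero (cuspForm_eq_zero_of_nonpos hk)

/-- `HasIntegralStructure N k` for odd `k`. -/
theorem hasIntegralStructure_of_odd (N : ℕ) {k : ℤ} (hk : Odd k) :
    CuspForm.HasIntegralStructure N k :=
  hasIntegralStructure_of_forall_eq_zero (cuspForm_eq_zero_of_odd hk)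

/-- Reduction of the general-weight statement to even weights `k ≥ 2`. -/
theorem hasIntegralStructure_of_even_ge_two (N : ℕ) [NeZero N]
    (h : ∀ k : ℤ, 2 ≤ k → Even k → CuspForm.HasIntegralStructure N k) (k : ℤ) :
    CuspForm.HasIntegralStructure N k := by
  rcases Int.even_or_odd k with he | ho
  · rcases le_or_gt 2 k with h2 | h2
    · exact h k h2 he
    · refine hasIntegralStructure_of_nonpos N ?_
      rcases he with ⟨r, hr⟩
      omega
  · exact hasIntegralStructure_of_odd N ho

end Fermat.Agent.S23.H576
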